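import Fermat.Agent.GS.Eis1.ZetaQuasi

/-!
# GS / Eis1 : the weight-one Eisenstein family `E_a`, `a ∈ ℝ² ∖ ℤ²`

`E_a(τ) = ζ(a₁τ + a₂; τ) − G₂(τ)(a₁τ + a₂) + 2πi a₁`.

* `eisA_add_int` : `E_a` only depends on `a` modulo `ℤ²`;
* `eisA_slash` : `E_a ∣[1] γ = E_{aγ}` for `γ ∈ SL(2, ℤ)`;
* `mdifferentiable_eisA` : `E_a` is holomorphic.
-/

set_option autoImplicit false

namespace Fermat.Agent.GS.Eis1

open UpperHalfPlane hiding I
open Complex EisensteinSeries Filter Asymptotics Topology SummationFilter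
open scoped MatrixGroups Real ModularForm Manifold

noncomputable section

/-- The weight-one Eisenstein function `E_a`. -/
def eisA (a1 a2 : ℝ) (τ : ℍ) : ℂ :=
  wZeta (τ : ℂ) (zLine a1 a2 (τ : ℂ)) - G2 τ * zLine a1 a2 (τ : ℂ) + 2 * π * I * (a1 : ℂ)

/-- `(a₁, a₂) ∉ ℤ²`. -/
def NotInt (a1 a2 : ℝ) : Prop := ∀ m n : ℤ, ¬ (a1 = m ∧ a2 = n)

lemma NotInt.add_int {a1 a2 : ℝ} (ha : NotInt a1 a2) (m n : ℤ) : NotInt (a1 + m) (a2 + n) := by
  intro m' n' h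
  apply ha (m' - m) (n' - n)
  push_cast
  exact ⟨by linarith [h.1], by linarith [h.2]⟩

lemma zLine_not_lattice {a1 a2 : ℝ} (ha : NotInt a1 a2) (τ : ℍ) :
    ∀ p : ℤ × ℤ, zLine a1 a2 (τ : ℂ) ≠ lp (τ : ℂ) p := fun p h =>
  zLine_sub_lp_ne_zero ha τ p (sub_eq_zero.mpr h)

/-! ### Translation by lattice points -/

lemma wZeta_add_int (τ : ℍ) {z : ℂ} (hz : ∀ p : ℤ × ℤ, z ≠ lp (τ : ℂ) p) (n : ℤ) :
    wZeta (τ : ℂ) (z + n) = wZeta (τ : ℂ) z + n * G2 τ := by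
  have key : ∀ k : ℤ, ∀ p : ℤ × ℤ, z + (k : ℂ) ≠ lp (τ : ℂ) p := by
    intro k
    have := not_lattice_add τ hz (0, k)
    simpa [lp] using this
  induction n using Int.induction_on with
  | zero => simp
  | succ n ih =>
    have := wZeta_add_one τ (key n)
    push_cast at this ih ⊢
    rw [← add_assoc, this, ih]; ring
  | pred n ih =>
    have := wZeta_add_one τ (key (-(n : ℤ) - 1))
    push_cast at this ih ⊢
    rw [show z + (-(n : ℂ) - 1) + 1 = z + -(n : ℂ) by ring, ih] at this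
    linear_combination -this

lemma wZeta_add_int_mul_tau (τ : ℍ) {z : ℂ} (hz : ∀ p : ℤ × ℤ, z ≠ lp (τ : ℂ) p) (m : ℤ) :
    wZeta (τ : ℂ) (z + m * (τ : ℂ)) =
      wZeta (τ : ℂ) z + m * (τ : ℂ) * G2 τ - 2 * π * I * m := by
  have key : ∀ k : ℤ, ∀ p : ℤ × ℤ, z + (k : ℂ) * (τ : ℂ) ≠ lp (τ : ℂ) p := by
    intro k
    have := not_lattice_add τ hz (k, 0)
    simpa [lp] using this
  induction m using Int.induction_on with
  | zero => simp
  | succ n ih =>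
    have := wZeta_add_tau τ (key n)
    push_cast at this ih ⊢
    rw [show z + ((n : ℂ) + 1) * (τ : ℂ) = z + (n : ℂ) * (τ : ℂ) + (τ : ℂ) by ring, this, ih]
    ring
  | pred n ih =>
    have := wZeta_add_tau τ (key (-(n : ℤ) - 1))
    push_cast at this ih ⊢
    rw [show z + (-(n : ℂ) - 1) * (τ : ℂ) + (τ : ℂ) = z + -(n : ℂ) * (τ : ℂ) by ring, ih] at this
    linear_combination -this

lemma wZeta_add_lp (τ : ℍ) {z : ℂ} (hz : ∀ p : ℤ × ℤ, z ≠ lp (τ : ℂ) p) (q : ℤ × ℤ) :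
    wZeta (τ : ℂ) (z + lp (τ : ℂ) q) =
      wZeta (τ : ℂ) z + lp (τ : ℂ) q * G2 τ - 2 * π * I * q.1 := by
  have h1 : ∀ p : ℤ × ℤ, z + (q.1 : ℂ) * (τ : ℂ) ≠ lp (τ : ℂ) p := by
    have := not_lattice_add τ hz (q.1, 0)
    simpa [lp] using this
  rw [lp, ← add_assoc, wZeta_add_int τ h1, wZeta_add_int_mul_tau τ hz]
  ring

/-- `E_a` only depends on `a` modulo `ℤ²`. -/
theorem eisA_add_int {a1 a2 : ℝ} (ha : NotInt a1 a2) (m n : ℤ) (τ : ℍ) :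
    eisA (a1 + m) (a2 + n) τ = eisA a1 a2 τ := by
  have hz := zLine_not_lattice ha τ
  have e : zLine (a1 + m) (a2 + n) (τ : ℂ) = zLine a1 a2 (τ : ℂ) + lp (τ : ℂ) (m, n) := by
    simp only [zLine, lp]; push_cast; ring
  rw [eisA, eisA, e, wZeta_add_lp τ hz]
  push_cast
  ring

/-! ### The slash action -/

/-- The right action of `SL(2, ℤ)` on real row vectors: first coordinate. -/
def actFst (g : SL(2, ℤ)) (a1 a2 : ℝ) : ℝ := a1 * (g 0 0 : ℤ) + a2 * (g 1 0 : ℤ)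

/-- The right action of `SL(2, ℤ)` on real row vectors: second coordinate. -/
def actSnd (g : SL(2, ℤ)) (a1 a2 : ℝ) : ℝ := a1 * (g 0 1 : ℤ) + a2 * (g 1 1 : ℤ)

lemma det_eq_one (g : SL(2, ℤ)) : (g 0 0 : ℤ) * g 1 1 - g 0 1 * g 1 0 = 1 := by
  have := g.det_coe
  rwa [Matrix.det_fin_two] at this

lemma zLine_smul (g : SL(2, ℤ)) (a1 a2 : ℝ) (τ : ℍ) :
    zLine a1 a2 ((g • τ : ℍ) : ℂ) =
      zLine (actFst g a1 a2) (actSnd g a1 a2) (τ : ℂ) / jfac g (τ : ℂ) := by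
  have hj := jfac_ne_zero g τ
  rw [coe_smul_eq, zLine, zLine, actFst, actSnd]
  field_simp
  simp only [jfac]
  push_cast
  ring

lemma G2_smul (g : SL(2, ℤ)) (τ : ℍ) :
    G2 (g • τ) = jfac g (τ : ℂ) ^ 2 * G2 τ - 2 * π * I * (g 1 0 : ℤ) * jfac g (τ : ℂ) := by
  have hj := jfac_ne_zero g τ
  have h := congrFun (G2_slash_action g) τ
  rw [ModularForm.SL_slash_apply, ← jfac_eq_denom] at h
  simp only [Pi.sub_apply, D2, ← jfac_eq_denom] at h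
  rw [zpow_neg, zpow_ofNat] at h
  field_simp at h
  linear_combination h

/-- `E_a(γτ) = (cτ + d) E_{aγ}(τ)`. -/
theorem eisA_smul (g : SL(2, ℤ)) (a1 a2 : ℝ) (τ : ℍ) :
    eisA a1 a2 (g • τ) = jfac g (τ : ℂ) * eisA (actFst g a1 a2) (actSnd g a1 a2) τ := by
  have hj := jfac_ne_zero g τ
  have hdet : ((g 0 0 : ℤ) : ℂ) * (g 1 1 : ℤ) - (g 0 1 : ℤ) * (g 1 0 : ℤ) = 1 := by
    exact_mod_cast congrArg (Int.cast : ℤ → ℂ) (det_eq_one g)
  rw [eisA, eisA, zLine_smul, wZeta_smul, G2_smul]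
  have e : zLine (actFst g a1 a2) (actSnd g a1 a2) (τ : ℂ) =
      ((a1 : ℂ) * (g 0 0 : ℤ) + (a2 : ℂ) * (g 1 0 : ℤ)) * (τ : ℂ) +
        ((a1 : ℂ) * (g 0 1 : ℤ) + (a2 : ℂ) * (g 1 1 : ℤ)) := by
    simp only [zLine, actFst, actSnd]; push_cast; ring
  have e2 : ((actFst g a1 a2 : ℝ) : ℂ) = (a1 : ℂ) * (g 0 0 : ℤ) + (a2 : ℂ) * (g 1 0 : ℤ) := by
    simp only [actFst]; push_cast; ring
  rw [e2]
  generalize wZeta (τ : ℂ) (zLine (actFst g a1 a2) (actSnd g a1 a2) (τ : ℂ)) = W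
  rw [e]
  have ej : jfac g (τ : ℂ) = ((g 1 0 : ℤ) : ℂ) * (τ : ℂ) + ((g 1 1 : ℤ) : ℂ) := rfl
  field_simp
  rw [ej]
  linear_combination (-(2 * π * I * (a1 : ℂ))) * hdet

/-- `E_a ∣[1] γ = E_{aγ}`. -/
theorem eisA_slash (g : SL(2, ℤ)) (a1 a2 : ℝ) :
    (eisA a1 a2) ∣[(1 : ℤ)] g = eisA (actFst g a1 a2) (actSnd g a1 a2) := by
  funext τ
  rw [ModularForm.SL_slash_apply, ← jfac_eq_denom, eisA_smul, zpow_neg, zpow_one]
  field_simp [jfac_ne_zero g τ]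

/-! ### Holomorphy -/

lemma mdifferentiable_G2 : MDiff G2 := by
  have h : G2 = (2 * riemannZeta 2) • E2 := by
    funext τ
    have hz : (2 * riemannZeta 2) ≠ 0 := by
      rw [riemannZeta_two]
      have : (π : ℂ) ≠ 0 := by exact_mod_cast Real.pi_ne_zero
      simp [this]
    simp only [E2, Pi.smul_apply, smul_eq_mul]
    rw [one_div, ← mul_assoc, mul_inv_cancel₀ hz, one_mul]
  rw [h]
  exact E2_mdifferentiable.const_smul _

/-- `E_a` is holomorphic on the upper half plane. -/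
theorem mdifferentiable_eisA {a1 a2 : ℝ} (ha : NotInt a1 a2) : MDiff (eisA a1 a2) := by
  rw [UpperHalfPlane.mdifferentiable_iff]
  have h1 := differentiableOn_wZeta_zLine ha
  have h2 : DifferentiableOn ℂ (G2 ∘ ofComplex) {z : ℂ | 0 < z.im} :=
    UpperHalfPlane.mdifferentiable_iff.mp mdifferentiable_G2
  have h3 : DifferentiableOn ℂ (fun τ : ℂ => zLine a1 a2 τ) {z : ℂ | 0 < z.im} := by
    unfold zLine; fun_prop
  refine ((h1.sub (h2.mul h3)).add_const (2 * π * I * (a1 : ℂ))).congr ?_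
  intro w hw
  simp only [Function.comp_apply, eisA, ofComplex_apply_of_im_pos hw, Pi.mul_apply,
    Pi.sub_apply]

end

end Fermat.Agent.GS.Eis1
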