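import Fermat.Agent.GS.Eis1.EisA

/-!
# GS / Eis1 : `E_a` is bounded at `i∞` (for every `a ∉ ℤ²`)

Norm estimates from the cotangent form; no `q^{1/M}`-expansion bookkeeping.
-/

set_option autoImplicit false

namespace Fermat.Agent.GS.Eis1

open UpperHalfPlane hiding I
open Complex EisensteinSeries Filter Asymptotics Topology SummationFilter
open scoped MatrixGroups Real ModularForm Manifold

noncomputable section

/-- `π cot πx = −πi − 2πi X/(1−X)` with `X = e^{2πix} ≠ 1`. -/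
lemma pcot_eq_exp (x : ℂ) (hX : cexp (2 * π * I * x) ≠ 1) :
    pcot x = -(π * I) - 2 * π * I * (cexp (2 * π * I * x) / (1 - cexp (2 * π * I * x))) := by
  have h1 : (1 : ℂ) - cexp (2 * π * I * x) ≠ 0 := sub_ne_zero.mpr (Ne.symm hX)
  rw [pcot, Complex.cot_pi_eq_exp_ratio]
  set X := cexp (2 * π * I * x) with hXdef
  have e1 : (X + 1) / (I * (1 - X)) = -I * ((X + 1) / (1 - X)) := by
    rw [mul_comm I, ← div_div, div_eq_mul_inv _ I, Complex.inv_I]; ring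
  have e2 : (X + 1) / (1 - X) = 1 + 2 * (X / (1 - X)) := by
    field_simp; ring
  rw [e1, e2]; ring

lemma norm_exp_two_pi_I_mul (x : ℂ) : ‖cexp (2 * π * I * x)‖ = Real.exp (-2 * π * x.im) := by
  rw [Complex.norm_exp]
  congr 1
  have : (2 * (π : ℂ) * I * x).re = -(2 * π * x.im) := by
    simp [mul_re, mul_im]
  rw [this]; ring

/-- If `|e^{2πix}| ≤ ρ < 1` then `|π cot πx + πi| ≤ 2πρ/(1−ρ)`. -/
lemma norm_pcot_add_le (x : ℂ) {ρ : ℝ} (hρ : ρ < 1) (hX : ‖cexp (2 * π * I * x)‖ ≤ ρ) :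
    ‖pcot x + π * I‖ ≤ 2 * π * (ρ / (1 - ρ)) := by
  have hX1 : cexp (2 * π * I * x) ≠ 1 := by
    intro h
    rw [h, norm_one] at hX
    linarith
  have hρ0 : 0 ≤ ρ := le_trans (norm_nonneg _) hX
  rw [pcot_eq_exp x hX1]
  have e : -(π * I) - 2 * π * I * (cexp (2 * π * I * x) / (1 - cexp (2 * π * I * x))) + π * I =
      -(2 * π * I) * (cexp (2 * π * I * x) / (1 - cexp (2 * π * I * x))) := by ring
  rw [e, norm_mul, norm_neg, norm_mul, norm_mul, norm_I, mul_one, norm_div]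
  have h2 : ‖(2 : ℂ)‖ = 2 := by simp
  have h3 : ‖(π : ℂ)‖ = π := by
    rw [Complex.norm_real, Real.norm_eq_abs, abs_of_pos Real.pi_pos]
  rw [h2, h3]
  have h4 : 1 - ρ ≤ ‖1 - cexp (2 * π * I * x)‖ := by
    have := norm_sub_norm_le (1 : ℂ) (cexp (2 * π * I * x))
    rw [norm_one] at this
    linarith
  have h5 : 0 < 1 - ρ := by linarith
  gcongr

/-- If `|e^{-2πix}| ≤ ρ < 1` then `|π cot πx − πi| ≤ 2πρ/(1−ρ)`. -/
lemma norm_pcot_sub_le (x : ℂ) {ρ : ℝ} (hρ : ρ < 1) (hX : ‖cexp (2 * π * I * (-x))‖ ≤ ρ) :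
    ‖pcot x - π * I‖ ≤ 2 * π * (ρ / (1 - ρ)) := by
  have := norm_pcot_add_le (-x) hρ hX
  rw [pcot_neg] at this
  rw [← norm_neg]
  have e : -(pcot x - π * I) = -pcot x + π * I := by ring
  rw [e]; exact this

/-- The geometric bound for `uTerm`. -/
lemma norm_uTerm_le {a1 a2 : ℝ} (h0 : 0 ≤ a1) (h1 : a1 < 1) (τ : ℍ) (hτ : 1 ≤ τ.im) (m : ℕ)
    (hm : 1 ≤ m) :
    ‖uTerm (τ : ℂ) (zLine a1 a2 (τ : ℂ)) m‖ ≤
      4 * π * (Real.exp (-2 * π * (1 - a1)) ^ m / (1 - Real.exp (-2 * π * (1 - a1)))) := by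
  set ρ := Real.exp (-2 * π * (1 - a1)) with hρdef
  have hρ1 : ρ < 1 := by
    rw [hρdef, Real.exp_lt_one_iff]
    have : 0 < 1 - a1 := by linarith
    have := Real.pi_pos
    nlinarith
  have hρ0 : 0 < ρ := Real.exp_pos _
  have hρm : ρ ^ m ≤ ρ := by
    calc ρ ^ m ≤ ρ ^ 1 := pow_le_pow_of_le_one hρ0.le hρ1.le hm
      _ = ρ := pow_one ρ
  have hρm1 : ρ ^ m < 1 := lt_of_le_of_lt hρm hρ1
  have hm' : (1 : ℝ) ≤ m := by exact_mod_cast hm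
  have hπ := Real.pi_pos
  have him : (zLine a1 a2 (τ : ℂ)).im = a1 * τ.im := by
    simp [zLine, mul_im]
  -- the two exponentials
  have hX1 : ‖cexp (2 * π * I * (zLine a1 a2 (τ : ℂ) + (m : ℂ) * (τ : ℂ)))‖ ≤ ρ ^ m := by
    rw [norm_exp_two_pi_I_mul, hρdef, ← Real.exp_nat_mul]
    apply Real.exp_le_exp.mpr
    have : (zLine a1 a2 (τ : ℂ) + (m : ℂ) * (τ : ℂ)).im = (a1 + m) * τ.im := by
      rw [add_im, him]; simp [mul_im]; ring
    rw [this]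
    have h2 : (1 - a1) * m ≤ (a1 + m) * τ.im := by nlinarith
    nlinarith
  have hX2 : ‖cexp (2 * π * I * (-(zLine a1 a2 (τ : ℂ) - (m : ℂ) * (τ : ℂ))))‖ ≤ ρ ^ m := by
    rw [norm_exp_two_pi_I_mul, hρdef, ← Real.exp_nat_mul]
    apply Real.exp_le_exp.mpr
    have : (-(zLine a1 a2 (τ : ℂ) - (m : ℂ) * (τ : ℂ))).im = (m - a1) * τ.im := by
      rw [neg_im, sub_im, him]; simp [mul_im]; ring
    rw [this]
    have h2 : (1 - a1) * m ≤ (m - a1) * τ.im := by nlinarith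
    nlinarith
  have b1 := norm_pcot_add_le _ hρm1 hX1
  have b2 := norm_pcot_sub_le _ hρm1 hX2
  have e : uTerm (τ : ℂ) (zLine a1 a2 (τ : ℂ)) m =
      (pcot (zLine a1 a2 (τ : ℂ) - (m : ℂ) * (τ : ℂ)) - π * I) +
      (pcot (zLine a1 a2 (τ : ℂ) + (m : ℂ) * (τ : ℂ)) + π * I) := by
    rw [uTerm]; ring
  rw [e]
  refine (norm_add_le _ _).trans ?_
  have h6 : ρ ^ m / (1 - ρ ^ m) ≤ ρ ^ m / (1 - ρ) := by
    apply div_le_div_of_nonneg_left (by positivity) (by linarith) (by linarith)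
  calc _ ≤ 2 * π * (ρ ^ m / (1 - ρ ^ m)) + 2 * π * (ρ ^ m / (1 - ρ ^ m)) := add_le_add b2 b1
    _ ≤ 2 * π * (ρ ^ m / (1 - ρ)) + 2 * π * (ρ ^ m / (1 - ρ)) := by gcongr
    _ = 4 * π * (ρ ^ m / (1 - ρ)) := by ring

/-- Bound for the partial sums of the cotangent series. -/
lemma norm_sum_uTerm_le {a1 a2 : ℝ} (h0 : 0 ≤ a1) (h1 : a1 < 1) (τ : ℍ) (hτ : 1 ≤ τ.im) (N : ℕ) :
    ‖∑ m ∈ Finset.range N, uTerm (τ : ℂ) (zLine a1 a2 (τ : ℂ)) (m + 1)‖ ≤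
      4 * π / (1 - Real.exp (-2 * π * (1 - a1))) ^ 2 := by
  set ρ := Real.exp (-2 * π * (1 - a1)) with hρdef
  have hρ1 : ρ < 1 := by
    rw [hρdef, Real.exp_lt_one_iff]
    have : 0 < 1 - a1 := by linarith
    have := Real.pi_pos
    nlinarith
  have hρ0 : 0 < ρ := Real.exp_pos _
  have hπ := Real.pi_pos
  have h1ρ : 0 < 1 - ρ := by linarith
  refine (norm_sum_le _ _).trans ?_
  have hb : ∀ m ∈ Finset.range N, ‖uTerm (τ : ℂ) (zLine a1 a2 (τ : ℂ)) (m + 1)‖ ≤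
      4 * π / (1 - ρ) * ρ ^ (m + 1) := by
    intro m _
    have := norm_uTerm_le (a2 := a2) h0 h1 τ hτ (m + 1) (by omega)
    rw [← hρdef] at this
    calc _ ≤ 4 * π * (ρ ^ (m + 1) / (1 - ρ)) := this
      _ = 4 * π / (1 - ρ) * ρ ^ (m + 1) := by ring
  refine (Finset.sum_le_sum hb).trans ?_
  rw [← Finset.mul_sum]
  have hgeo : ∑ m ∈ Finset.range N, ρ ^ (m + 1) ≤ 1 / (1 - ρ) := by
    have hs : Summable fun m : ℕ => ρ ^ (m + 1) := by
      have := summable_geometric_of_lt_one hρ0.le hρ1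
      exact (summable_nat_add_iff 1).mpr this
    have h3 := hs.sum_le_tsum (Finset.range N) (fun i _ => by positivity)
    have h4 : ∑' m : ℕ, ρ ^ (m + 1) = ρ * (1 - ρ)⁻¹ := by
      simp_rw [pow_succ']
      rw [tsum_mul_left, tsum_geometric_of_lt_one hρ0.le hρ1]
    rw [h4] at h3
    refine h3.trans ?_
    rw [one_div]
    have : 0 ≤ (1 - ρ)⁻¹ := by positivity
    nlinarith
  calc 4 * π / (1 - ρ) * ∑ m ∈ Finset.range N, ρ ^ (m + 1)
      ≤ 4 * π / (1 - ρ) * (1 / (1 - ρ)) := by gcongr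
    _ = 4 * π / (1 - ρ) ^ 2 := by
      field_simp

/-- Boundedness on `{im τ ≥ 1}`, normalised case `0 ≤ a₁ < 1`. -/
lemma exists_bound_eisA_of_mem_Ico {a1 a2 : ℝ} (ha : NotInt a1 a2) (h0 : 0 ≤ a1) (h1 : a1 < 1) :
    ∃ C : ℝ, ∀ τ : ℍ, 1 ≤ τ.im → ‖eisA a1 a2 τ‖ ≤ C := by
  have hπ := Real.pi_pos
  -- a bound for `pcot (zLine a τ)`
  obtain ⟨C0, hC0⟩ : ∃ C0 : ℝ, ∀ τ : ℍ, 1 ≤ τ.im → ‖pcot (zLine a1 a2 (τ : ℂ))‖ ≤ C0 := by
    rcases eq_or_lt_of_le h0 with h | h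
    · refine ⟨‖pcot (a2 : ℂ)‖, fun τ _ => ?_⟩
      rw [← h]
      simp [zLine]
    · set ρ' := Real.exp (-2 * π * a1) with hρ'
      have hρ'1 : ρ' < 1 := by
        rw [hρ', Real.exp_lt_one_iff]
        nlinarith
      refine ⟨2 * π * (ρ' / (1 - ρ')) + π, fun τ hτ => ?_⟩
      have hX : ‖cexp (2 * π * I * zLine a1 a2 (τ : ℂ))‖ ≤ ρ' := by
        rw [norm_exp_two_pi_I_mul, hρ']
        apply Real.exp_le_exp.mpr
        have : (zLine a1 a2 (τ : ℂ)).im = a1 * τ.im := by simp [zLine, mul_im]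
        rw [this]
        have h5 : a1 * 1 ≤ a1 * τ.im := mul_le_mul_of_nonneg_left hτ h.le
        nlinarith [mul_nonneg hπ.le (sub_nonneg.mpr h5)]
      have b := norm_pcot_add_le _ hρ'1 hX
      have : pcot (zLine a1 a2 (τ : ℂ)) = (pcot (zLine a1 a2 (τ : ℂ)) + π * I) - π * I := by ring
      rw [this]
      refine (norm_sub_le _ _).trans ?_
      have h3 : ‖(π : ℂ) * I‖ = π := by
        rw [norm_mul, norm_I, mul_one, Complex.norm_real, Real.norm_eq_abs, abs_of_pos hπ]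
      rw [h3]
      linarith
  refine ⟨C0 + 4 * π / (1 - Real.exp (-2 * π * (1 - a1))) ^ 2 + 2 * π * |a1|, fun τ hτ => ?_⟩
  have hz := zLine_not_lattice ha τ
  have hlim := tendsto_cotPartial τ hz
  have hb : ‖wZeta (τ : ℂ) (zLine a1 a2 (τ : ℂ)) - zLine a1 a2 (τ : ℂ) * G2 τ‖ ≤
      C0 + 4 * π / (1 - Real.exp (-2 * π * (1 - a1))) ^ 2 := by
    refine le_of_tendsto' hlim.norm fun N => ?_
    refine (norm_add_le _ _).trans ?_
    exact add_le_add (hC0 τ hτ) (norm_sum_uTerm_le h0 h1 τ hτ N)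
  have e : eisA a1 a2 τ = (wZeta (τ : ℂ) (zLine a1 a2 (τ : ℂ)) - zLine a1 a2 (τ : ℂ) * G2 τ) +
      2 * π * I * (a1 : ℂ) := by
    rw [eisA]; ring
  rw [e]
  refine (norm_add_le _ _).trans ?_
  have h4 : ‖2 * π * I * (a1 : ℂ)‖ = 2 * π * |a1| := by
    rw [norm_mul, norm_mul, norm_mul, norm_I, mul_one, Complex.norm_real, Complex.norm_real,
      Real.norm_eq_abs, Real.norm_eq_abs, abs_of_pos hπ]
    simp
  rw [h4]
  linarith

/-- `E_a` is bounded at `i∞` for every `a ∉ ℤ²`. -/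
theorem isBoundedAtImInfty_eisA {a1 a2 : ℝ} (ha : NotInt a1 a2) :
    IsBoundedAtImInfty (eisA a1 a2) := by
  rw [UpperHalfPlane.isBoundedAtImInfty_iff]
  have ha' : NotInt (a1 + ((-⌊a1⌋ : ℤ) : ℝ)) (a2 + ((0 : ℤ) : ℝ)) := ha.add_int _ _
  have h0 : 0 ≤ a1 + ((-⌊a1⌋ : ℤ) : ℝ) := by
    push_cast
    linarith [Int.floor_le a1]
  have h1 : a1 + ((-⌊a1⌋ : ℤ) : ℝ) < 1 := by
    push_cast
    linarith [Int.lt_floor_add_one a1]
  obtain ⟨C, hC⟩ := exists_bound_eisA_of_mem_Ico ha' h0 h1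
  refine ⟨C, 1, fun τ hτ => ?_⟩
  rw [← eisA_add_int ha (-⌊a1⌋) 0 τ]
  exact hC τ hτ

end

end Fermat.Agent.GS.Eis1
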