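import Fermat.Agent.GS.Eis1.EisBdd

/-!
# GS / Eis1 : the weight-one Eisenstein family as Mathlib modular forms

* `eisMF Γ' a1 a2 ha hΓ : ModularForm Γ' 1` for a finite-index `Γ' ≤ SL(2, ℤ)` fixing `a` mod `ℤ²`;
* `eisGamma M α β h : ModularForm Γ(M) 1`, the form `E_{(α/M, β/M)}`;
* `eisGamma1 M b h : ModularForm (Gamma1 M) 1`, the form `E_{(0, b/M)}`;
* `eisA_slash_Gamma0` : `E_{(0,b/M)} ∣[1] γ = E_{(0, b·d/M)}` for `γ ∈ Γ₀(M)`.
-/

set_option autoImplicit false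

namespace Fermat.Agent.GS.Eis1

open UpperHalfPlane hiding I
open Complex EisensteinSeries Filter Asymptotics Topology SummationFilter CongruenceSubgroup
open Matrix.SpecialLinearGroup
open scoped MatrixGroups Real ModularForm Manifold

noncomputable section

lemma NotInt.act {a1 a2 : ℝ} (ha : NotInt a1 a2) (g : SL(2, ℤ)) :
    NotInt (actFst g a1 a2) (actSnd g a1 a2) := by
  intro m n h
  have hdet : ((g 0 0 : ℤ) : ℝ) * (g 1 1 : ℤ) - (g 0 1 : ℤ) * (g 1 0 : ℤ) = 1 := by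
    exact_mod_cast congrArg (Int.cast : ℤ → ℝ) (det_eq_one g)
  apply ha (m * g 1 1 - n * g 1 0) (-m * g 0 1 + n * g 0 0)
  obtain ⟨h1, h2⟩ := h
  simp only [actFst, actSnd] at h1 h2
  push_cast
  constructor
  · rw [← h1, ← h2]
    linear_combination (-a1) * hdet
  · rw [← h1, ← h2]
    linear_combination (-a2) * hdet

/-- The general constructor: `E_a` as a modular form of weight one for a finite-index subgroup
of `SL(2, ℤ)` fixing `a` modulo `ℤ²`. -/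
def eisMF (Γ' : Subgroup SL(2, ℤ)) [Γ'.FiniteIndex] (a1 a2 : ℝ) (ha : NotInt a1 a2)
    (hΓ : ∀ γ ∈ Γ', ∃ m n : ℤ, actFst γ a1 a2 = a1 + m ∧ actSnd γ a1 a2 = a2 + n) :
    ModularForm Γ' 1 where
  toFun := eisA a1 a2
  slash_action_eq' A hA := by
    obtain ⟨A, hA, rfl⟩ := hA
    obtain ⟨m, n, h1, h2⟩ := hΓ A hA
    have : eisA a1 a2 ∣[(1 : ℤ)] A = eisA a1 a2 := by
      rw [eisA_slash, h1, h2]
      funext τ
      exact eisA_add_int ha m n τ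
    simpa [Matrix.SpecialLinearGroup.mapGL, ← ModularForm.SL_slash] using this
  holo' := mdifferentiable_eisA ha
  bdd_at_cusps' {c} hc := by
    rw [Subgroup.IsArithmetic.isCusp_iff_isCusp_SL2Z] at hc
    rw [OnePoint.isBoundedAt_iff_forall_SL2Z hc]
    intro γ _
    rw [eisA_slash]
    exact isBoundedAtImInfty_eisA (ha.act γ)

@[simp] lemma eisMF_apply (Γ' : Subgroup SL(2, ℤ)) [Γ'.FiniteIndex] (a1 a2 : ℝ)
    (ha : NotInt a1 a2)
    (hΓ : ∀ γ ∈ Γ', ∃ m n : ℤ, actFst γ a1 a2 = a1 + m ∧ actSnd γ a1 a2 = a2 + n) (τ : ℍ) :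
    eisMF Γ' a1 a2 ha hΓ τ = eisA a1 a2 τ := rfl

lemma notInt_div {M : ℕ} [NeZero M] {α β : ℤ} (h : ¬ ((M : ℤ) ∣ α ∧ (M : ℤ) ∣ β)) :
    NotInt ((α : ℝ) / M) ((β : ℝ) / M) := by
  have hM : (M : ℝ) ≠ 0 := by exact_mod_cast NeZero.ne M
  intro m n ⟨h1, h2⟩
  apply h
  rw [div_eq_iff hM] at h1 h2
  constructor
  · refine ⟨m, ?_⟩
    have : (α : ℝ) = ((M * m : ℤ) : ℝ) := by push_cast; linarith
    exact_mod_cast this
  · refine ⟨n, ?_⟩
    have : (β : ℝ) = ((M * n : ℤ) : ℝ) := by push_cast; linarith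
    exact_mod_cast this

lemma dvd_sub_one_of_cast_eq_one {M : ℕ} {x : ℤ} (h : ((x : ℤ) : ZMod M) = 1) :
    (M : ℤ) ∣ x - 1 := by
  have : ((x - 1 : ℤ) : ZMod M) = 0 := by push_cast; rw [h]; ring
  exact (ZMod.intCast_zmod_eq_zero_iff_dvd _ _).mp this

lemma dvd_of_cast_eq_zero {M : ℕ} {x : ℤ} (h : ((x : ℤ) : ZMod M) = 0) : (M : ℤ) ∣ x :=
  (ZMod.intCast_zmod_eq_zero_iff_dvd _ _).mp h

/-- `E_{(α/M, β/M)}` as a modular form of weight one on `Γ(M)`. -/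
def eisGamma (M : ℕ) [NeZero M] (α β : ℤ) (h : ¬ ((M : ℤ) ∣ α ∧ (M : ℤ) ∣ β)) :
    ModularForm Γ(M) 1 :=
  eisMF Γ(M) ((α : ℝ) / M) ((β : ℝ) / M) (notInt_div h) (by
    intro γ hγ
    have hM : (M : ℝ) ≠ 0 := by exact_mod_cast NeZero.ne M
    obtain ⟨h00, h01, h10, h11⟩ := Gamma_mem.mp hγ
    obtain ⟨a', ha'⟩ := dvd_sub_one_of_cast_eq_one h00
    obtain ⟨b', hb'⟩ := dvd_of_cast_eq_zero h01
    obtain ⟨c', hc'⟩ := dvd_of_cast_eq_zero h10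
    obtain ⟨d', hd'⟩ := dvd_sub_one_of_cast_eq_one h11
    refine ⟨α * a' + β * c', α * b' + β * d', ?_, ?_⟩
    · simp only [actFst]
      have e1 : ((γ 0 0 : ℤ) : ℝ) = 1 + M * a' := by
        have : (γ 0 0 : ℤ) = 1 + M * a' := by linarith
        rw [this]; push_cast; ring
      have e2 : ((γ 1 0 : ℤ) : ℝ) = M * c' := by rw [hc']; push_cast; ring
      rw [e1, e2]; push_cast; field_simp; ring
    · simp only [actSnd]
      have e1 : ((γ 0 1 : ℤ) : ℝ) = M * b' := by rw [hb']; push_cast; ring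
      have e2 : ((γ 1 1 : ℤ) : ℝ) = 1 + M * d' := by
        have : (γ 1 1 : ℤ) = 1 + M * d' := by linarith
        rw [this]; push_cast; ring
      rw [e1, e2]; push_cast; field_simp; ring)

@[simp] lemma eisGamma_apply (M : ℕ) [NeZero M] (α β : ℤ) (h : ¬ ((M : ℤ) ∣ α ∧ (M : ℤ) ∣ β))
    (τ : ℍ) : eisGamma M α β h τ = eisA ((α : ℝ) / M) ((β : ℝ) / M) τ := rfl

lemma notInt_zero_div {M : ℕ} [NeZero M] {b : ℤ} (h : ¬ (M : ℤ) ∣ b) :
    NotInt 0 ((b : ℝ) / M) := by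
  have := notInt_div (M := M) (α := 0) (β := b) (fun h' => h h'.2)
  simpa using this

/-- `E_{(0,b/M)} ∣[1] γ = E_{(0, b·d/M)}` for `γ ∈ Γ₀(M)`. -/
theorem eisA_slash_Gamma0 (M : ℕ) [NeZero M] (b : ℤ) (h : ¬ (M : ℤ) ∣ b) (γ : SL(2, ℤ))
    (hγ : γ ∈ Gamma0 M) :
    eisA 0 ((b : ℝ) / M) ∣[(1 : ℤ)] γ = eisA 0 (((b * γ 1 1 : ℤ) : ℝ) / M) := by
  have hM : (M : ℝ) ≠ 0 := by exact_mod_cast NeZero.ne M
  obtain ⟨c', hc'⟩ := dvd_of_cast_eq_zero (Gamma0_mem.mp hγ)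
  rw [eisA_slash]
  have hn := (notInt_zero_div h).act γ
  have e1 : actFst γ 0 ((b : ℝ) / M) = 0 + ((b * c' : ℤ) : ℝ) := by
    simp only [actFst]
    rw [hc']; push_cast; field_simp; ring
  have e2 : actSnd γ 0 ((b : ℝ) / M) = ((b * γ 1 1 : ℤ) : ℝ) / M + ((0 : ℤ) : ℝ) := by
    simp only [actSnd]; push_cast; ring
  have hn' : NotInt 0 (((b * γ 1 1 : ℤ) : ℝ) / M) := by
    intro m n hmn
    apply hn (m + b * c') n
    rw [e1, e2]
    obtain ⟨hm1, hm2⟩ := hmn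
    push_cast at hm2 ⊢
    exact ⟨by linarith, by linarith⟩
  funext τ
  rw [e1, e2]
  exact eisA_add_int hn' (b * c') 0 τ

/-- `E_{(0, b/M)}` as a modular form of weight one on `Γ₁(M)`. -/
def eisGamma1 (M : ℕ) [NeZero M] (b : ℤ) (h : ¬ (M : ℤ) ∣ b) : ModularForm (Gamma1 M) 1 :=
  eisMF (Gamma1 M) 0 ((b : ℝ) / M) (notInt_zero_div h) (by
    intro γ hγ
    have hM : (M : ℝ) ≠ 0 := by exact_mod_cast NeZero.ne M
    obtain ⟨_, h11, h10⟩ := (Gamma1_mem M γ).mp hγ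
    obtain ⟨c', hc'⟩ := dvd_of_cast_eq_zero h10
    obtain ⟨d', hd'⟩ := dvd_sub_one_of_cast_eq_one h11
    refine ⟨b * c', b * d', ?_, ?_⟩
    · simp only [actFst]
      rw [hc']; push_cast; field_simp; ring
    · simp only [actSnd]
      have e2 : ((γ 1 1 : ℤ) : ℝ) = 1 + M * d' := by
        have : (γ 1 1 : ℤ) = 1 + M * d' := by linarith
        rw [this]; push_cast; ring
      rw [e2]; push_cast; field_simp; ring)

@[simp] lemma eisGamma1_apply (M : ℕ) [NeZero M] (b : ℤ) (h : ¬ (M : ℤ) ∣ b) (τ : ℍ) :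
    eisGamma1 M b h τ = eisA 0 ((b : ℝ) / M) τ := rfl

end

end Fermat.Agent.GS.Eis1
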