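import Fermat.Agent.GS.Eis1.EisForm

/-!
# GS / Eis1 : the `q`-expansion of `E_{(0, a₂)}`

`E_{(0,a₂)}(τ) = π cot(π a₂) + 2πi ∑_{n ≥ 1} (∑_{k ∣ n} (ζ⁻ᵏ − ζᵏ)) qⁿ`, `ζ = e^{2πi a₂}`, `q = e^{2πiτ}`.
-/

set_option autoImplicit false

namespace Fermat.Agent.GS.Eis1

open UpperHalfPlane hiding I
open Complex EisensteinSeries Filter Asymptotics Topology SummationFilter CongruenceSubgroup
open scoped MatrixGroups Real ModularForm Manifold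

noncomputable section

lemma hasSum_of_eq {ι : Type*} {f g : ι → ℂ} {a : ℂ} (h : HasSum f a) (e : ∀ i, g i = f i) :
    HasSum g a := by
  rwa [show g = f from funext e]

/-- `ζ⁻ᵏ − ζᵏ`. -/
def gco (ζ : ℂ) (k : ℕ) : ℂ := ζ⁻¹ ^ k - ζ ^ k

/-- `∑_{k ∣ n} (ζ⁻ᵏ − ζᵏ)`. -/
def dco (ζ : ℂ) (n : ℕ) : ℂ := ∑ k ∈ n.divisors, gco ζ k

lemma hasSum_geom_pnat {X : ℂ} (hX : ‖X‖ < 1) :
    HasSum (fun k : ℕ+ => X ^ (k : ℕ)) (X / (1 - X)) := by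
  have h1 := (hasSum_geometric_of_norm_lt_one hX).mul_left X
  have h2 : HasSum (fun n : ℕ => X ^ (n + 1)) (X / (1 - X)) := by
    rw [div_eq_mul_inv]
    have e : (fun n : ℕ => X ^ (n + 1)) = fun i => X * X ^ i := by
      funext n; rw [pow_succ']
    rw [e]; exact h1
  have h3 := (Equiv.pnatEquivNat.hasSum_iff (f := fun n : ℕ => X ^ (n + 1))).mpr h2
  have e : (fun k : ℕ+ => X ^ (k : ℕ)) = (fun n : ℕ => X ^ (n + 1)) ∘ Equiv.pnatEquivNat := by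
    funext k
    simp [Equiv.pnatEquivNat]
  rw [e]; exact h3

/-- `q = e^{2πiτ}`. -/
def qq (τ : ℍ) : ℂ := cexp (2 * π * I * (τ : ℂ))

lemma norm_qq_lt_one (τ : ℍ) : ‖qq τ‖ < 1 := norm_exp_two_pi_I_lt_one τ

/-- `ζ = e^{2πi a₂}`. -/
def zz (a2 : ℝ) : ℂ := cexp (2 * π * I * (a2 : ℂ))

lemma norm_zz (a2 : ℝ) : ‖zz a2‖ = 1 := by
  rw [zz, norm_exp_two_pi_I_mul]
  simp

lemma zz_ne_zero (a2 : ℝ) : zz a2 ≠ 0 := Complex.exp_ne_zero _

lemma norm_gco_le (a2 : ℝ) (k : ℕ) : ‖gco (zz a2) k‖ ≤ 2 := by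
  unfold gco
  refine (norm_sub_le _ _).trans ?_
  rw [norm_pow, norm_pow, norm_inv, norm_zz]
  norm_num

lemma exp_add_mul (a2 : ℝ) (τ : ℍ) (m : ℕ) :
    cexp (2 * π * I * ((a2 : ℂ) + (m : ℂ) * (τ : ℂ))) = zz a2 * qq τ ^ m := by
  rw [zz, qq, ← Complex.exp_nat_mul, ← Complex.exp_add]
  congr 1; ring

lemma exp_sub_mul (a2 : ℝ) (τ : ℍ) (m : ℕ) :
    cexp (2 * π * I * (-((a2 : ℂ) - (m : ℂ) * (τ : ℂ)))) = (zz a2)⁻¹ * qq τ ^ m := by
  rw [zz, qq, ← Complex.exp_nat_mul, ← Complex.exp_neg, ← Complex.exp_add]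
  congr 1; ring

/-- `uTerm` in exponential form. -/
lemma uTerm_eq_exp (a2 : ℝ) (τ : ℍ) (m : ℕ+) :
    uTerm (τ : ℂ) (a2 : ℂ) m = 2 * π * I *
      ((zz a2)⁻¹ * qq τ ^ (m : ℕ) / (1 - (zz a2)⁻¹ * qq τ ^ (m : ℕ)) -
        zz a2 * qq τ ^ (m : ℕ) / (1 - zz a2 * qq τ ^ (m : ℕ))) := by
  have hq := norm_qq_lt_one τ
  have hqm : ‖qq τ ^ (m : ℕ)‖ < 1 := by
    rw [norm_pow]
    exact pow_lt_one₀ (norm_nonneg _) hq m.pos.ne'
  have h1 : cexp (2 * π * I * ((a2 : ℂ) + ((m : ℕ) : ℂ) * (τ : ℂ))) ≠ 1 := by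
    rw [exp_add_mul]
    intro h
    have := congrArg norm h
    rw [norm_mul, norm_zz, one_mul, norm_one] at this
    linarith
  have h2 : cexp (2 * π * I * (-((a2 : ℂ) - ((m : ℕ) : ℂ) * (τ : ℂ)))) ≠ 1 := by
    rw [exp_sub_mul]
    intro h
    have := congrArg norm h
    rw [norm_mul, norm_inv, norm_zz, inv_one, one_mul, norm_one] at this
    linarith
  have e1 := pcot_eq_exp _ h1
  have e2 := pcot_eq_exp _ h2
  rw [pcot_neg] at e2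
  rw [exp_add_mul] at e1
  rw [exp_sub_mul] at e2
  rw [uTerm]
  linear_combination e1 - e2

lemma hasSum_uTerm (a2 : ℝ) (τ : ℍ) (m : ℕ+) :
    HasSum (fun k : ℕ+ => gco (zz a2) k * qq τ ^ ((m : ℕ) * (k : ℕ)))
      (uTerm (τ : ℂ) (a2 : ℂ) m / (2 * π * I)) := by
  have hq := norm_qq_lt_one τ
  have hqm : ‖qq τ ^ (m : ℕ)‖ < 1 := by
    rw [norm_pow]
    exact pow_lt_one₀ (norm_nonneg _) hq m.pos.ne'
  have hX1 : ‖(zz a2)⁻¹ * qq τ ^ (m : ℕ)‖ < 1 := by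
    rwa [norm_mul, norm_inv, norm_zz, inv_one, one_mul]
  have hX2 : ‖zz a2 * qq τ ^ (m : ℕ)‖ < 1 := by
    rwa [norm_mul, norm_zz, one_mul]
  have h := (hasSum_geom_pnat hX1).sub (hasSum_geom_pnat hX2)
  have hpi : (2 * π * I : ℂ) ≠ 0 := by
    have : (π : ℂ) ≠ 0 := by exact_mod_cast Real.pi_ne_zero
    simp [this, I_ne_zero]
  rw [uTerm_eq_exp, mul_div_cancel_left₀ _ hpi]
  refine hasSum_of_eq h ?_
  intro k
  rw [gco, mul_pow, mul_pow, ← pow_mul]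
  ring

/-- The double series is summable. -/
lemma summable_double (a2 : ℝ) (τ : ℍ) :
    Summable fun c : ℕ+ × ℕ+ => gco (zz a2) c.2 * qq τ ^ ((c.1 : ℕ) * (c.2 : ℕ)) := by
  have hq := norm_qq_lt_one τ
  have hr : ‖(‖qq τ‖ : ℝ)‖ < 1 := by rwa [norm_norm]
  have h := (summable_prod_mul_pow (𝕜 := ℝ) 0 hr).mul_left 2
  refine Summable.of_norm_bounded h fun c => ?_
  rw [norm_mul, norm_pow]
  have := norm_gco_le a2 c.2
  have h0 : 0 ≤ ‖qq τ‖ ^ ((c.1 : ℕ) * (c.2 : ℕ)) := by positivity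
  calc ‖gco (zz a2) c.2‖ * ‖qq τ‖ ^ ((c.1 : ℕ) * (c.2 : ℕ))
      ≤ 2 * ‖qq τ‖ ^ ((c.1 : ℕ) * (c.2 : ℕ)) := by gcongr
    _ = 2 * (((c.2 : ℕ) : ℝ) ^ 0 * ‖qq τ‖ ^ ((c.1 : ℕ) * (c.2 : ℕ))) := by simp

/-- The total of the double series. -/
def dblT (a2 : ℝ) (τ : ℍ) : ℂ :=
  ∑' c : ℕ+ × ℕ+, gco (zz a2) c.2 * qq τ ^ ((c.1 : ℕ) * (c.2 : ℕ))

/-- `E_{(0,a₂)} = π cot π a₂ + 2πi · (double series)`. -/
lemma eisA_zero_eq (a2 : ℝ) (ha : NotInt 0 a2) (τ : ℍ) :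
    eisA 0 a2 τ = pcot (a2 : ℂ) + 2 * π * I * dblT a2 τ := by
  have hpi : (2 * π * I : ℂ) ≠ 0 := by
    have : (π : ℂ) ≠ 0 := by exact_mod_cast Real.pi_ne_zero
    simp [this, I_ne_zero]
  have hz : zLine 0 a2 (τ : ℂ) = (a2 : ℂ) := by simp [zLine]
  have hlat := zLine_not_lattice ha τ
  rw [hz] at hlat
  have h1 := tendsto_cotPartial τ hlat
  -- the sum over `m`
  have h2 : HasSum (fun m : ℕ+ => uTerm (τ : ℂ) (a2 : ℂ) m / (2 * π * I)) (dblT a2 τ) :=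
    (summable_double a2 τ).hasSum.prod_fiberwise fun m => hasSum_uTerm a2 τ m
  have h3 : HasSum (fun n : ℕ => uTerm (τ : ℂ) (a2 : ℂ) (n + 1) / (2 * π * I)) (dblT a2 τ) := by
    have := (Equiv.pnatEquivNat.symm.hasSum_iff
      (f := fun m : ℕ+ => uTerm (τ : ℂ) (a2 : ℂ) m / (2 * π * I))).mpr h2
    refine hasSum_of_eq this ?_
    intro n
    simp [Equiv.pnatEquivNat]
  have h4 := (h3.mul_left (2 * π * I)).tendsto_sum_nat
  have h5 : Tendsto (fun N : ℕ => pcot (a2 : ℂ) +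
      ∑ m ∈ Finset.range N, uTerm (τ : ℂ) (a2 : ℂ) (m + 1)) atTop
      (𝓝 (pcot (a2 : ℂ) + 2 * π * I * dblT a2 τ)) := by
    refine (h4.const_add (pcot (a2 : ℂ))).congr fun N => ?_
    congr 1
    refine Finset.sum_congr rfl fun m _ => ?_
    rw [mul_div_cancel₀ _ hpi]
  have := tendsto_nhds_unique h1 h5
  rw [eisA, hz, ← this]
  simp
  ring

/-- Regrouping the double series by `n = m k`. -/
lemma hasSum_dblT (a2 : ℝ) (τ : ℍ) :
    HasSum (fun n : ℕ+ => dco (zz a2) n * qq τ ^ (n : ℕ)) (dblT a2 τ) := by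
  have h1 := (summable_double a2 τ).hasSum
  have h2 := (sigmaAntidiagonalEquivProd.hasSum_iff
    (f := fun c : ℕ+ × ℕ+ => gco (zz a2) c.2 * qq τ ^ ((c.1 : ℕ) * (c.2 : ℕ)))).mpr h1
  refine h2.sigma fun n => ?_
  have h3 := hasSum_fintype (fun x : (n : ℕ).divisorsAntidiagonal =>
    ((fun c : ℕ+ × ℕ+ => gco (zz a2) c.2 * qq τ ^ ((c.1 : ℕ) * (c.2 : ℕ))) ∘
      sigmaAntidiagonalEquivProd) ⟨n, x⟩)
  convert h3 using 1
  rw [dco, Finset.sum_mul, ← Nat.sum_divisorsAntidiagonal' (fun _ k => gco (zz a2) k * qq τ ^ (n : ℕ)),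
    ← Finset.sum_coe_sort]
  refine Finset.sum_congr rfl fun x _ => ?_
  simp only [Function.comp_apply, sigmaAntidiagonalEquivProd, Equiv.coe_fn_mk,
    divisorsAntidiagonalFactors, PNat.mk_coe]
  rw [(Nat.mem_divisorsAntidiagonal.mp x.2).1]

/-- The `q`-expansion coefficients of `E_{(0,a₂)}`. -/
def eisCoeff (a2 : ℝ) (n : ℕ) : ℂ :=
  if n = 0 then pcot (a2 : ℂ) else 2 * π * I * dco (zz a2) n

/-- **The `q`-expansion of `E_{(0,a₂)}`** as a `HasSum`. -/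
theorem hasSum_eisA_zero (a2 : ℝ) (ha : NotInt 0 a2) (τ : ℍ) :
    HasSum (fun n : ℕ => eisCoeff a2 n * qq τ ^ n) (eisA 0 a2 τ) := by
  have h1 := (hasSum_dblT a2 τ).mul_left (2 * π * I)
  have h2 : HasSum (fun n : ℕ => 2 * π * I * (dco (zz a2) (n + 1) * qq τ ^ (n + 1)))
      (2 * π * I * dblT a2 τ) := by
    have := (Equiv.pnatEquivNat.symm.hasSum_iff
      (f := fun n : ℕ+ => 2 * π * I * (dco (zz a2) n * qq τ ^ (n : ℕ)))).mpr h1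
    refine hasSum_of_eq this ?_
    intro n
    simp [Equiv.pnatEquivNat]
  rw [eisA_zero_eq a2 ha τ]
  rw [← hasSum_nat_add_iff' 1]
  simp only [Finset.range_one, Finset.sum_singleton, eisCoeff, if_true, pow_zero, mul_one,
    add_sub_cancel_left]
  refine hasSum_of_eq h2 ?_
  intro n
  simp only [Nat.add_eq_zero_iff, one_ne_zero, and_false, if_false]
  ring

end

end Fermat.Agent.GS.Eis1

namespace Fermat.Agent.GS.Eis1

open UpperHalfPlane hiding I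
open Complex CongruenceSubgroup
open scoped MatrixGroups Real ModularForm

/-- The `q`-expansion coefficients of `E_{(0,b/M)} ∈ M₁(Γ₁(M))`. -/
theorem qExpansion_eisGamma1_coeff (M : ℕ) [NeZero M] (b : ℤ) (h : ¬ (M : ℤ) ∣ b) (n : ℕ) :
    (qExpansion 1 (eisGamma1 M b h)).coeff n = eisCoeff ((b : ℝ) / M) n := by
  have hΓ : (1 : ℝ) ∈ ((Gamma1 M : Subgroup (GL (Fin 2) ℝ))).strictPeriods := by
    rw [CongruenceSubgroup.strictPeriods_Gamma1]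
    exact AddSubgroup.mem_zmultiples 1
  symm
  refine ModularFormClass.qExpansion_coeff_unique (c := eisCoeff ((b : ℝ) / M)) one_pos hΓ
    (f := eisGamma1 M b h) ?_ n
  intro τ
  have := hasSum_eisA_zero ((b : ℝ) / M) (notInt_zero_div h) τ
  simpa [Function.Periodic.qParam, qq, smul_eq_mul] using this

end Fermat.Agent.GS.Eis1
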