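import Fermat.Agent.GS.Eis1.ZetaSlash

/-!
# GS / Eis1 : the cotangent form of the Weierstrass zeta function

`ζ(z;τ) − z·G₂(τ) = π cot πz + ∑_{m ≥ 1} π (cot π(z − mτ) + cot π(z + mτ))`, stated as the
convergence of the partial sums (`tendsto_cotPartial`).
-/

set_option autoImplicit false

namespace Fermat.Agent.GS.Eis1

open Complex UpperHalfPlane EisensteinSeries Filter Asymptotics Topology SummationFilter
open scoped MatrixGroups Real

noncomputable section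

local notation "ℂ_ℤ" => Complex.integerComplement

lemma cot_neg' (x : ℂ) : Complex.cot (-x) = -Complex.cot x := by
  simp [Complex.cot, Complex.cos_neg, Complex.sin_neg, div_neg]

/-- `π cot(π x)`, with the junk value `0` at the integers where `sin (π x) = 0`... (only used
off the integers and at `0`). -/
def pcot (x : ℂ) : ℂ := π * Complex.cot (π * x)

lemma pcot_zero : pcot 0 = 0 := by simp [pcot, Complex.cot]

lemma pcot_neg (x : ℂ) : pcot (-x) = -pcot x := by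
  simp [pcot, mul_neg, cot_neg']

/-- The `ℕ+`-part of the cotangent series. -/
def cotC (x : ℂ) : ℂ := ∑' n : ℕ+, (1 / (x - n) + 1 / (x + n))

lemma summable_cotC {x : ℂ} (hx : x ∈ ℂ_ℤ) :
    Summable fun n : ℕ+ => (1 / (x - n) + 1 / (x + n)) := by
  have h := summable_cotTerm hx
  have h2 := (summable_pnat_iff_summable_succ
    (f := fun n : ℕ => 1 / (x - n) + 1 / (x + n))).mpr (by
      refine h.congr fun n => ?_
      simp [cotTerm])
  exact h2

lemma pcot_eq {x : ℂ} (hx : x ∈ ℂ_ℤ) : pcot x = 1 / x + cotC x := cot_series_rep hx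

lemma cotC_zero : cotC 0 = 0 := by
  unfold cotC
  convert tsum_zero with n
  simp

lemma summable_cotC_zero : Summable fun n : ℕ+ => (1 / ((0 : ℂ) - n) + 1 / ((0 : ℂ) + n)) := by
  convert summable_zero with n
  simp

/-- Two-sided sum over `ℤ` of `1/(x - n) + 1/(y + n)`. -/
lemma tsum_int_pair {x y : ℂ}
    (hf : Summable fun n : ℤ => (1 / (x - n) + 1 / (y + n)))
    (hx : Summable fun n : ℕ+ => (1 / (x - n) + 1 / (x + n)))
    (hy : Summable fun n : ℕ+ => (1 / (y - n) + 1 / (y + n))) :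
    ∑' n : ℤ, (1 / (x - n) + 1 / (y + n)) = (1 / x + cotC x) + (1 / y + cotC y) := by
  rw [tsum_int_eq_zero_add_tsum_pnat hf]
  have h1 : Summable fun n : ℕ+ => (1 / (x - ((n : ℕ) : ℤ)) + 1 / (y + ((n : ℕ) : ℤ))) :=
    hf.comp_injective (i := fun n : ℕ+ => ((n : ℕ) : ℤ))
      (fun a b h => by
        have h' : ((a : ℕ) : ℤ) = ((b : ℕ) : ℤ) := h
        exact_mod_cast h')
  have h2 : Summable fun n : ℕ+ => (1 / (x - ((-((n : ℕ) : ℤ) : ℤ) : ℂ)) +
      1 / (y + ((-((n : ℕ) : ℤ) : ℤ) : ℂ))) :=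
    hf.comp_injective (i := fun n : ℕ+ => -((n : ℕ) : ℤ))
      (fun a b h => by
        have : ((a : ℕ) : ℤ) = ((b : ℕ) : ℤ) := neg_injective h
        exact_mod_cast this)
  rw [add_assoc, ← Summable.tsum_add h1 h2]
  unfold cotC
  have e : ∀ n : ℕ+, (1 / (x - ((n : ℕ) : ℤ)) + 1 / (y + ((n : ℕ) : ℤ))) +
      (1 / (x - ((-((n : ℕ) : ℤ) : ℤ) : ℂ)) + 1 / (y + ((-((n : ℕ) : ℤ) : ℤ) : ℂ))) =
      (1 / (x - n) + 1 / (x + n)) + (1 / (y - n) + 1 / (y + n)) := by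
    intro n
    push_cast
    ring_nf
  rw [tsum_congr e, Summable.tsum_add hx hy]
  push_cast
  ring

/-- The part of the zeta term without the `z/ω²` summand. -/
def cT (τ z : ℂ) (p : ℤ × ℤ) : ℂ := 1 / (z - lp τ p) + 1 / lp τ p

lemma zTerm_eq_cT (τ : ℍ) (z : ℂ) (m n : ℤ) :
    zTerm (τ : ℂ) z (m, n) = cT (τ : ℂ) z (m, n) + z * eisSummand 2 ![m, n] τ := by
  simp only [zTerm, cT, eisSummand, lp, Matrix.cons_val_zero, Matrix.cons_val_one,
    Matrix.cons_val_fin_one]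
  rw [zpow_neg, div_eq_mul_inv z]
  norm_cast

lemma summable_cT_row (τ : ℍ) (z : ℂ) (m : ℤ) : Summable fun n : ℤ => cT (τ : ℂ) z (m, n) := by
  have h1 : Summable fun n : ℤ => zTerm (τ : ℂ) z (m, n) := (summable_zTerm τ z).prod_factor m
  have h2 : Summable fun n : ℤ => z * eisSummand 2 ![m, n] τ :=
    (e2Summand_summable m τ).mul_left z
  refine (h1.sub h2).congr fun n => ?_
  rw [zTerm_eq_cT]; ring

/-- The row sums of the `cT`-part. -/
def cRow (τ z : ℂ) (m : ℤ) : ℂ := ∑' n : ℤ, cT τ z (m, n)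

lemma tsum_zTerm_row (τ : ℍ) (z : ℂ) (m : ℤ) :
    ∑' n : ℤ, zTerm (τ : ℂ) z (m, n) = cRow (τ : ℂ) z m + z * e2Summand m τ := by
  have h2 : Summable fun n : ℤ => z * eisSummand 2 ![m, n] τ :=
    (e2Summand_summable m τ).mul_left z
  rw [cRow, e2Summand, ← tsum_mul_left, ← Summable.tsum_add (summable_cT_row τ z m) h2]
  exact tsum_congr fun n => zTerm_eq_cT τ z m n

lemma int_mul_mem_integerComplement (τ : ℍ) {m : ℤ} (hm : m ≠ 0) : (m : ℂ) * (τ : ℂ) ∈ ℂ_ℤ := by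
  rw [Complex.mem_integerComplement_iff]
  rintro ⟨n, hn⟩
  have h := lp_ne_zero τ (p := (m, -n)) (by simpa using fun h => absurd h hm)
  apply h
  simp [lp, hn]

lemma sub_mem_integerComplement (τ : ℍ) {z : ℂ} (hz : ∀ p : ℤ × ℤ, z ≠ lp (τ : ℂ) p) (m : ℤ) :
    z - (m : ℂ) * (τ : ℂ) ∈ ℂ_ℤ := by
  rw [Complex.mem_integerComplement_iff]
  rintro ⟨n, hn⟩
  apply hz (m, n)
  simp only [lp]
  rw [hn]; ring

lemma add_mem_integerComplement (τ : ℍ) {z : ℂ} (hz : ∀ p : ℤ × ℤ, z ≠ lp (τ : ℂ) p) (m : ℤ) :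
    z + (m : ℂ) * (τ : ℂ) ∈ ℂ_ℤ := by
  have := sub_mem_integerComplement τ hz (-m)
  simpa using this

/-- The value of a row sum. -/
lemma cRow_eq (τ : ℍ) {z : ℂ} (hz : ∀ p : ℤ × ℤ, z ≠ lp (τ : ℂ) p) (m : ℤ) :
    cRow (τ : ℂ) z m = pcot (z - (m : ℂ) * (τ : ℂ)) + pcot ((m : ℂ) * (τ : ℂ)) := by
  have hx := sub_mem_integerComplement τ hz m
  have hsum := summable_cT_row τ z m
  have e : ∀ n : ℤ, cT (τ : ℂ) z (m, n) =
      1 / ((z - (m : ℂ) * (τ : ℂ)) - n) + 1 / ((m : ℂ) * (τ : ℂ) + n) := by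
    intro n
    simp only [cT, lp]
    rw [sub_sub]
  rw [cRow, tsum_congr e]
  have hf : Summable fun n : ℤ =>
      (1 / ((z - (m : ℂ) * (τ : ℂ)) - n) + 1 / ((m : ℂ) * (τ : ℂ) + n)) :=
    hsum.congr e
  by_cases hm : m = 0
  · subst hm
    simp only [Int.cast_zero, zero_mul, sub_zero] at hf hx ⊢
    rw [tsum_int_pair hf (summable_cotC hx) summable_cotC_zero, cotC_zero, pcot_zero,
      pcot_eq hx]
    simp
  · have hy := int_mul_mem_integerComplement τ hm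
    rw [tsum_int_pair hf (summable_cotC hx) (summable_cotC hy), pcot_eq hx, pcot_eq hy]

/-- The `m`-th term of the cotangent series, `m ≥ 1`. -/
def uTerm (τ z : ℂ) (m : ℕ) : ℂ := pcot (z - (m : ℂ) * τ) + pcot (z + (m : ℂ) * τ)

lemma cRow_add_cRow_neg (τ : ℍ) {z : ℂ} (hz : ∀ p : ℤ × ℤ, z ≠ lp (τ : ℂ) p) (m : ℕ) :
    cRow (τ : ℂ) z ((m : ℤ) + 1) + cRow (τ : ℂ) z (-((m : ℤ) + 1)) =
      uTerm (τ : ℂ) z (m + 1) := by
  rw [cRow_eq τ hz, cRow_eq τ hz, uTerm]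
  push_cast
  rw [show (-((m : ℂ) + 1)) * (τ : ℂ) = -(((m : ℂ) + 1) * (τ : ℂ)) by ring, pcot_neg,
    sub_neg_eq_add]
  ring

lemma sum_Icc_cRow (τ : ℍ) {z : ℂ} (hz : ∀ p : ℤ × ℤ, z ≠ lp (τ : ℂ) p) (N : ℕ) :
    ∑ m ∈ Finset.Icc (-(N : ℤ)) N, cRow (τ : ℂ) z m =
      pcot z + ∑ m ∈ Finset.range N, uTerm (τ : ℂ) z (m + 1) := by
  induction N with
  | zero =>
    simp only [Nat.cast_zero, neg_zero, Finset.Icc_self, Finset.sum_singleton, Finset.range_zero,
      Finset.sum_empty, add_zero]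
    rw [cRow_eq τ hz]
    simp [pcot_zero]
  | succ N ih =>
    rw [Nat.cast_succ, Finset.sum_Icc_succ_eq_add_endpoints, ih, Finset.sum_range_succ,
      cRow_add_cRow_neg τ hz]
    ring

/-- **The cotangent form of the Weierstrass zeta function**, as convergence of partial sums. -/
theorem tendsto_cotPartial (τ : ℍ) {z : ℂ} (hz : ∀ p : ℤ × ℤ, z ≠ lp (τ : ℂ) p) :
    Tendsto (fun N : ℕ => pcot z + ∑ m ∈ Finset.range N, uTerm (τ : ℂ) z (m + 1)) atTop
      (𝓝 (wZeta (τ : ℂ) z - z * G2 τ)) := by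
  have hs := summable_zTerm τ z
  have h1 : HasSum (fun m : ℤ => ∑' n : ℤ, zTerm (τ : ℂ) z (m, n)) (wZeta (τ : ℂ) z) := by
    have := hs.prod.hasSum
    rwa [← hs.tsum_prod] at this
  have h2 : HasSum (fun m : ℤ => cRow (τ : ℂ) z m + z * e2Summand m τ) (wZeta (τ : ℂ) z)
      (symmetricIcc ℤ) := by
    have e : (fun m : ℤ => ∑' n : ℤ, zTerm (τ : ℂ) z (m, n)) =
        fun m : ℤ => cRow (τ : ℂ) z m + z * e2Summand m τ := by
      funext m
      rw [tsum_zTerm_row]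
    rw [← e]
    exact h1.mono_left (symmetricIcc ℤ).le_atTop
  have h3 : HasSum (fun m : ℤ => z * e2Summand m τ) (z * G2 τ) (symmetricIcc ℤ) :=
    ((summable_e2Summand_symmetricIcc τ).hasSum).mul_left z
  have h4 := h2.sub h3
  simp only [add_sub_cancel_right] at h4
  rw [hasSum_symmetricIcc_iff] at h4
  refine h4.congr fun N => ?_
  exact sum_Icc_cRow τ hz N

end

end Fermat.Agent.GS.Eis1
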