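import Fermat.Agent.GS.Eis1.ZetaCot

/-!
# GS / Eis1 : quasi-periodicity of the Weierstrass zeta function (Legendre relation)

`ζ(z+1) = ζ(z) + G₂(τ)` and `ζ(z+τ) = ζ(z) + τ G₂(τ) − 2πi`.
-/

set_option autoImplicit false

namespace Fermat.Agent.GS.Eis1

open UpperHalfPlane hiding I
open Complex EisensteinSeries Filter Asymptotics Topology SummationFilter
open scoped MatrixGroups Real

noncomputable section

lemma pcot_add_one (x : ℂ) : pcot (x + 1) = pcot x := by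
  unfold pcot
  rw [mul_add, mul_one, Complex.cot, Complex.cot, Complex.cos_add_pi, Complex.sin_add_pi,
    neg_div_neg_eq]

lemma pcot_add_int (x : ℂ) (n : ℤ) : pcot (x + n) = pcot x := by
  induction n using Int.induction_on with
  | zero => simp
  | succ n ih =>
    rw [← ih]
    push_cast
    rw [← add_assoc, pcot_add_one]
  | pred n ih =>
    rw [← ih, ← pcot_add_one (x + ((-(n : ℤ) - 1 : ℤ) : ℂ))]
    push_cast
    congr 1
    ring

lemma uTerm_add_one (τ z : ℂ) (m : ℕ) : uTerm τ (z + 1) m = uTerm τ z m := by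
  unfold uTerm
  rw [show z + 1 - (m : ℂ) * τ = (z - (m : ℂ) * τ) + 1 by ring,
    show z + 1 + (m : ℂ) * τ = (z + (m : ℂ) * τ) + 1 by ring, pcot_add_one, pcot_add_one]

lemma not_lattice_add (τ : ℍ) {z : ℂ} (hz : ∀ p : ℤ × ℤ, z ≠ lp (τ : ℂ) p) (q : ℤ × ℤ) :
    ∀ p : ℤ × ℤ, z + lp (τ : ℂ) q ≠ lp (τ : ℂ) p := by
  intro p h
  apply hz (p - q)
  simp only [lp, Prod.fst_sub, Prod.snd_sub, Int.cast_sub] at h ⊢
  linear_combination h

/-- `ζ(z + 1) − (z+1) G₂ = ζ(z) − z G₂`. -/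
theorem wZeta_add_one (τ : ℍ) {z : ℂ} (hz : ∀ p : ℤ × ℤ, z ≠ lp (τ : ℂ) p) :
    wZeta (τ : ℂ) (z + 1) = wZeta (τ : ℂ) z + G2 τ := by
  have hz1 : ∀ p : ℤ × ℤ, z + 1 ≠ lp (τ : ℂ) p := by
    have := not_lattice_add τ hz (0, 1)
    simpa [lp] using this
  have h1 := tendsto_cotPartial τ hz
  have h2 := tendsto_cotPartial τ hz1
  have e : (fun N : ℕ => pcot (z + 1) + ∑ m ∈ Finset.range N, uTerm (τ : ℂ) (z + 1) (m + 1)) =
      fun N : ℕ => pcot z + ∑ m ∈ Finset.range N, uTerm (τ : ℂ) z (m + 1) := by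
    funext N
    rw [pcot_add_one]
    congr 1
    exact Finset.sum_congr rfl fun m _ => uTerm_add_one _ _ _
  rw [e] at h2
  have := tendsto_nhds_unique h1 h2
  linear_combination -this

/-- `π cot π(z + Nτ) → −πi`. -/
lemma tendsto_pcot_add (τ : ℍ) (z : ℂ) :
    Tendsto (fun N : ℕ => pcot (z + (N : ℂ) * (τ : ℂ))) atTop (𝓝 (-(π : ℂ) * I)) := by
  have hq : ‖cexp (2 * π * I * (τ : ℂ))‖ < 1 := norm_exp_two_pi_I_lt_one τ
  have h0 : Tendsto (fun N : ℕ => cexp (2 * π * I * z) * cexp (2 * π * I * (τ : ℂ)) ^ N) atTop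
      (𝓝 (cexp (2 * π * I * z) * 0)) :=
    (tendsto_pow_atTop_nhds_zero_of_norm_lt_one hq).const_mul _
  rw [mul_zero] at h0
  have e : ∀ N : ℕ, cexp (2 * π * I * (z + (N : ℂ) * (τ : ℂ))) =
      cexp (2 * π * I * z) * cexp (2 * π * I * (τ : ℂ)) ^ N := by
    intro N
    rw [← Complex.exp_nat_mul, ← Complex.exp_add]
    congr 1
    ring
  have h1 : Tendsto (fun N : ℕ => (π : ℂ) * ((cexp (2 * π * I * (z + (N : ℂ) * (τ : ℂ))) + 1) /
      (I * (1 - cexp (2 * π * I * (z + (N : ℂ) * (τ : ℂ))))))) atTop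
      (𝓝 ((π : ℂ) * ((0 + 1) / (I * (1 - 0))))) := by
    simp_rw [e]
    refine Tendsto.const_mul _ (Tendsto.div (h0.add_const 1)
      ((tendsto_const_nhds.sub h0).const_mul I) ?_)
    simp
  have e2 : (π : ℂ) * ((0 + 1) / (I * (1 - 0))) = -(π : ℂ) * I := by
    rw [zero_add, sub_zero, mul_one, one_div, Complex.inv_I]; ring
  rw [e2] at h1
  refine h1.congr fun N => ?_
  rw [pcot, Complex.cot_pi_eq_exp_ratio]

/-- `π cot π(z − Nτ) → πi`. -/
lemma tendsto_pcot_sub (τ : ℍ) (z : ℂ) :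
    Tendsto (fun N : ℕ => pcot (z - (N : ℂ) * (τ : ℂ))) atTop (𝓝 ((π : ℂ) * I)) := by
  have h := (tendsto_pcot_add τ (-z)).neg
  rw [show -(-(π : ℂ) * I) = (π : ℂ) * I by ring] at h
  refine h.congr fun N => ?_
  rw [← pcot_neg]
  congr 1
  ring

/-- Telescoping identity for the partial sums under `z ↦ z + τ`. -/
lemma cotPartial_add_tau (τ z : ℂ) (N : ℕ) :
    (pcot (z + τ) + ∑ m ∈ Finset.range N, uTerm τ (z + τ) (m + 1)) -
      (pcot z + ∑ m ∈ Finset.range N, uTerm τ z (m + 1)) =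
    pcot (z + ((N + 1 : ℕ) : ℂ) * τ) - pcot (z - (N : ℂ) * τ) := by
  induction N with
  | zero =>
    simp
  | succ N ih =>
    rw [Finset.sum_range_succ, Finset.sum_range_succ]
    have e1 : uTerm τ (z + τ) (N + 1) =
        pcot (z - (N : ℂ) * τ) + pcot (z + ((N + 1 + 1 : ℕ) : ℂ) * τ) := by
      unfold uTerm
      push_cast
      congr 2 <;> ring
    have e2 : uTerm τ z (N + 1) =
        pcot (z - ((N + 1 : ℕ) : ℂ) * τ) + pcot (z + ((N + 1 : ℕ) : ℂ) * τ) := by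
      unfold uTerm
      rfl
    rw [e1, e2]
    linear_combination ih

/-- The Legendre relation: `ζ(z + τ) = ζ(z) + τ G₂(τ) − 2πi`. -/
theorem wZeta_add_tau (τ : ℍ) {z : ℂ} (hz : ∀ p : ℤ × ℤ, z ≠ lp (τ : ℂ) p) :
    wZeta (τ : ℂ) (z + (τ : ℂ)) = wZeta (τ : ℂ) z + (τ : ℂ) * G2 τ - 2 * π * I := by
  have hz1 : ∀ p : ℤ × ℤ, z + (τ : ℂ) ≠ lp (τ : ℂ) p := by
    have := not_lattice_add τ hz (1, 0)
    simpa [lp] using this
  have h1 := tendsto_cotPartial τ hz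
  have h2 := tendsto_cotPartial τ hz1
  have h3 := h2.sub h1
  simp_rw [cotPartial_add_tau] at h3
  have h4 : Tendsto (fun N : ℕ => pcot (z + ((N + 1 : ℕ) : ℂ) * (τ : ℂ)) -
      pcot (z - (N : ℂ) * (τ : ℂ))) atTop (𝓝 (-(π : ℂ) * I - (π : ℂ) * I)) :=
    ((tendsto_pcot_add τ z).comp (tendsto_add_atTop_nat 1)).sub (tendsto_pcot_sub τ z)
  have := tendsto_nhds_unique h3 h4
  linear_combination this

end

end Fermat.Agent.GS.Eis1
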