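import Fermat.Agent.GS.Eis1.ZetaSummable

/-!
# GS / Eis1 : homogeneity of the Weierstrass zeta function under `SL(2, ℤ)`

`ζ(z / (cτ+d); γτ) = (cτ+d) ζ(z; τ)`: a reindexing of the lattice sum.
-/

set_option autoImplicit false

namespace Fermat.Agent.GS.Eis1

open Complex UpperHalfPlane EisensteinSeries Filter Asymptotics Topology
open scoped MatrixGroups

noncomputable section

/-- The raw zeta term as a function of `z` and the lattice point `ω`. -/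
def zT (z ω : ℂ) : ℂ := 1 / (z - ω) + 1 / ω + z / ω ^ 2

lemma zTerm_eq_zT (τ z : ℂ) (p : ℤ × ℤ) : zTerm τ z p = zT z (lp τ p) := rfl

lemma zT_div (z ω : ℂ) {j : ℂ} (hj : j ≠ 0) : zT (z / j) (ω / j) = j * zT z ω := by
  unfold zT
  have e1 : 1 / (z / j - ω / j) = j * (1 / (z - ω)) := by
    rw [← sub_div, one_div_div, mul_one_div]
  have e2 : 1 / (ω / j) = j * (1 / ω) := by
    rw [one_div_div, mul_one_div]
  have e3 : z / j / (ω / j) ^ 2 = j * (z / ω ^ 2) := by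
    by_cases hω : ω = 0
    · simp [hω]
    · field_simp
  rw [e1, e2, e3]; ring

/-- The right action of `SL(2, ℤ)` on row vectors in `ℤ × ℤ`. -/
def pairAct (g : SL(2, ℤ)) (p : ℤ × ℤ) : ℤ × ℤ :=
  (p.1 * g 0 0 + p.2 * g 1 0, p.1 * g 0 1 + p.2 * g 1 1)

lemma pairAct_one (p : ℤ × ℤ) : pairAct 1 p = p := by
  simp [pairAct]

lemma pairAct_mul (g h : SL(2, ℤ)) (p : ℤ × ℤ) : pairAct (g * h) p = pairAct h (pairAct g p) := by
  simp only [pairAct, Matrix.SpecialLinearGroup.coe_mul, Matrix.mul_apply, Fin.sum_univ_two]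
  ext <;> simp <;> ring

/-- `pairAct g` as an equivalence. -/
def pairEquiv (g : SL(2, ℤ)) : ℤ × ℤ ≃ ℤ × ℤ where
  toFun := pairAct g
  invFun := pairAct g⁻¹
  left_inv p := by rw [← pairAct_mul, mul_inv_cancel, pairAct_one]
  right_inv p := by rw [← pairAct_mul, inv_mul_cancel, pairAct_one]

@[simp] lemma pairEquiv_apply (g : SL(2, ℤ)) (p : ℤ × ℤ) : pairEquiv g p = pairAct g p := rfl

/-- The automorphy factor `cτ + d`. -/
def jfac (g : SL(2, ℤ)) (τ : ℂ) : ℂ := (g 1 0 : ℂ) * τ + (g 1 1 : ℂ)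

lemma jfac_eq_denom (g : SL(2, ℤ)) (τ : ℍ) : jfac g (τ : ℂ) = denom g τ := by
  rw [ModularGroup.denom_apply]; rfl

lemma jfac_ne_zero (g : SL(2, ℤ)) (τ : ℍ) : jfac g (τ : ℂ) ≠ 0 := by
  rw [jfac_eq_denom]; exact denom_ne_zero g τ

lemma coe_smul_eq (g : SL(2, ℤ)) (τ : ℍ) :
    ((g • τ : ℍ) : ℂ) = ((g 0 0 : ℂ) * τ + (g 0 1 : ℂ)) / jfac g (τ : ℂ) := by
  rw [coe_specialLinearGroup_apply]
  simp [jfac]

lemma lp_smul (g : SL(2, ℤ)) (τ : ℍ) (p : ℤ × ℤ) :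
    lp ((g • τ : ℍ) : ℂ) p = lp (τ : ℂ) (pairAct g p) / jfac g (τ : ℂ) := by
  have hj := jfac_ne_zero g τ
  rw [coe_smul_eq, lp, lp, pairAct]
  field_simp
  simp only [jfac]
  push_cast
  ring

/-- Homogeneity of the Weierstrass zeta function. -/
theorem wZeta_smul (g : SL(2, ℤ)) (τ : ℍ) (z : ℂ) :
    wZeta ((g • τ : ℍ) : ℂ) (z / jfac g (τ : ℂ)) = jfac g (τ : ℂ) * wZeta (τ : ℂ) z := by
  have hj := jfac_ne_zero g τ
  unfold wZeta
  rw [← tsum_mul_left, ← (pairEquiv g).tsum_eq (fun p => jfac g (τ : ℂ) * zTerm (τ : ℂ) z p)]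
  refine tsum_congr fun p => ?_
  rw [zTerm_eq_zT, zTerm_eq_zT, lp_smul, zT_div _ _ hj, pairEquiv_apply]

end

end Fermat.Agent.GS.Eis1
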