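import Fermat.Agent.GS.Eis1.ZetaTerm

/-!
# GS / Eis1 : summability and holomorphy (in `τ`) of the Weierstrass zeta series
-/

set_option autoImplicit false

namespace Fermat.Agent.GS.Eis1

open Complex UpperHalfPlane EisensteinSeries Filter Asymptotics Topology

noncomputable section

lemma tendsto_norm_cofinite_atTop_pair :
    Tendsto (fun p : ℤ × ℤ => ‖p‖) cofinite atTop := by
  have h := tendsto_norm_cocompact_atTop (E := ℤ × ℤ)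
  rwa [Filter.cocompact_eq_cofinite] at h

lemma eventually_large (c : ℝ) : ∀ᶠ p : ℤ × ℤ in cofinite, c ≤ ‖p‖ ∧ p ≠ 0 := by
  have h1 := tendsto_norm_cofinite_atTop_pair.eventually_ge_atTop (max c 1)
  filter_upwards [h1] with p hp
  refine ⟨le_trans (le_max_left _ _) hp, ?_⟩
  rintro rfl
  have : (1 : ℝ) ≤ 0 := by simpa using le_trans (le_max_right c 1) hp
  linarith

/-- The zeta series is (absolutely) summable. -/
lemma summable_zTerm (τ : ℍ) (z : ℂ) : Summable (zTerm (τ : ℂ) z) := by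
  refine Summable.of_norm_bounded_eventually
    (g := fun p : ℤ × ℤ => 2 * ‖z‖ ^ 2 * (r τ) ^ (-3 : ℝ) * ‖p‖ ^ (-3 : ℝ))
    (summable_norm_rpow_neg_three.mul_left _) ?_
  filter_upwards [eventually_large (2 * ‖z‖ / r τ)] with p hp
  refine norm_zTerm_le τ z ?_ hp.2
  have := hp.1
  rw [div_le_iff₀ (r_pos τ)] at this
  linarith

lemma hasSum_wZeta (τ : ℍ) (z : ℂ) : HasSum (zTerm (τ : ℂ) z) (wZeta (τ : ℂ) z) :=
  (summable_zTerm τ z).hasSum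

/-- Compact subsets of the upper half plane (as a subset of `ℂ`) lie in a vertical strip. -/
lemma exists_strip_of_isCompact {K : Set ℂ} (hK : IsCompact K) (hKs : K ⊆ {z : ℂ | 0 < z.im}) :
    ∃ A B : ℝ, ∃ hB : 0 < B, ∀ τ ∈ K, ∀ hτ : 0 < τ.im,
      r ⟨⟨A, B⟩, hB⟩ ≤ r ⟨τ, hτ⟩ := by
  have hc : ContinuousOn (ofComplex : ℂ → ℍ) K := by
    refine ofComplex.continuousOn.mono ?_
    intro z hz
    have := hKs hz
    simpa [ofComplex] using this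
  obtain ⟨A, B, hB, hAB⟩ := subset_verticalStrip_of_isCompact (hK.image_of_continuousOn hc)
  refine ⟨A, B, hB, fun τ hτK hτ => ?_⟩
  apply r_lower_bound_on_verticalStrip _ hB
  apply hAB
  refine ⟨τ, hτK, ?_⟩
  exact ofComplex_apply_of_im_pos hτ

/-- The line `z = a₁ τ + a₂`. -/
def zLine (a1 a2 : ℝ) (τ : ℂ) : ℂ := (a1 : ℂ) * τ + (a2 : ℂ)

lemma zLine_sub_lp (a1 a2 : ℝ) (τ : ℂ) (p : ℤ × ℤ) :
    zLine a1 a2 τ - lp τ p = ((a1 - p.1 : ℝ) : ℂ) * τ + ((a2 - p.2 : ℝ) : ℂ) := by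
  simp [zLine, lp]; ring

lemma zLine_sub_lp_ne_zero {a1 a2 : ℝ} (ha : ∀ m n : ℤ, ¬ (a1 = m ∧ a2 = n)) (τ : ℍ)
    (p : ℤ × ℤ) : zLine a1 a2 (τ : ℂ) - lp (τ : ℂ) p ≠ 0 := by
  rw [zLine_sub_lp]
  have h := linear_ne_zero (cd := ![a1 - p.1, a2 - p.2]) τ (by
    intro h
    have h0 : a1 - p.1 = 0 := by simpa using congrFun h 0
    have h1 : a2 - p.2 = 0 := by simpa using congrFun h 1
    exact ha p.1 p.2 ⟨by linarith, by linarith⟩)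
  simpa using h

lemma zLine_ne_zero {a1 a2 : ℝ} (ha : ∀ m n : ℤ, ¬ (a1 = m ∧ a2 = n)) (τ : ℍ) :
    zLine a1 a2 (τ : ℂ) ≠ 0 := by
  simpa using zLine_sub_lp_ne_zero ha τ 0

lemma differentiableAt_zTerm_zLine {a1 a2 : ℝ} (ha : ∀ m n : ℤ, ¬ (a1 = m ∧ a2 = n))
    (p : ℤ × ℤ) {τ : ℂ} (hτ : 0 < τ.im) :
    DifferentiableAt ℂ (fun τ : ℂ => zTerm τ (zLine a1 a2 τ) p) τ := by
  have h2 : zLine a1 a2 τ - lp τ p ≠ 0 := zLine_sub_lp_ne_zero ha ⟨τ, hτ⟩ p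
  have hz : DifferentiableAt ℂ (fun τ : ℂ => zLine a1 a2 τ) τ := by
    unfold zLine; fun_prop
  have hl : DifferentiableAt ℂ (fun τ : ℂ => lp τ p) τ := by
    unfold lp; fun_prop
  by_cases hp : p = 0
  · subst hp
    have : (fun τ : ℂ => zTerm τ (zLine a1 a2 τ) 0) = fun τ => 1 / zLine a1 a2 τ := by
      funext τ; rw [zTerm_zero]
    rw [this]
    exact (differentiableAt_const _).div hz (zLine_ne_zero ha ⟨τ, hτ⟩)
  · have h1 : lp τ p ≠ 0 := lp_ne_zero ⟨τ, hτ⟩ hp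
    unfold zTerm
    refine ((DifferentiableAt.div (differentiableAt_const _) (hz.sub hl) h2).add
      (DifferentiableAt.div (differentiableAt_const _) hl h1)).add
      (DifferentiableAt.div hz (hl.pow 2) (pow_ne_zero 2 h1))

/-- Locally uniform summability of the zeta series along a line `z = a₁τ + a₂`. -/
lemma summableLocallyUniformlyOn_zTerm_zLine (a1 a2 : ℝ) :
    SummableLocallyUniformlyOn (fun (p : ℤ × ℤ) (τ : ℂ) => zTerm τ (zLine a1 a2 τ) p)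
      {z : ℂ | 0 < z.im} := by
  apply SummableLocallyUniformlyOn.of_locally_bounded_eventually isOpen_upperHalfPlaneSet
  intro K hKs hK
  obtain ⟨A, B, hB, hAB⟩ := exists_strip_of_isCompact hK hKs
  obtain ⟨T, hT⟩ := hK.exists_bound_of_continuousOn (f := fun τ : ℂ => τ) continuousOn_id
  set r0 := r ⟨⟨A, B⟩, hB⟩ with hr0
  have hr0pos : 0 < r0 := r_pos _
  set R : ℝ := |a1| * max T 0 + |a2| with hR
  have hRnn : 0 ≤ R := by positivity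
  refine ⟨fun p => 2 * R ^ 2 * r0 ^ (-3 : ℝ) * ‖p‖ ^ (-3 : ℝ),
    summable_norm_rpow_neg_three.mul_left _, ?_⟩
  filter_upwards [eventually_large (2 * R / r0)] with p hp τ hτK
  have hτ : 0 < τ.im := hKs hτK
  have hr : r0 ≤ r ⟨τ, hτ⟩ := hAB τ hτK hτ
  have hz : ‖zLine a1 a2 τ‖ ≤ R := by
    have h1 : ‖τ‖ ≤ max T 0 := le_trans (hT τ hτK) (le_max_left _ _)
    calc ‖zLine a1 a2 τ‖ ≤ ‖(a1 : ℂ) * τ‖ + ‖(a2 : ℂ)‖ := norm_add_le _ _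
      _ = |a1| * ‖τ‖ + |a2| := by
        rw [norm_mul, Complex.norm_real, Complex.norm_real, Real.norm_eq_abs, Real.norm_eq_abs]
      _ ≤ R := by rw [hR]; gcongr
  have hp1 : 2 * R ≤ r0 * ‖p‖ := by
    have := hp.1
    rw [div_le_iff₀ hr0pos] at this
    linarith
  have hpn : 0 < ‖p‖ := norm_pos_iff.mpr hp.2
  have hcond : 2 * ‖zLine a1 a2 τ‖ ≤ r ⟨τ, hτ⟩ * ‖p‖ := by
    calc 2 * ‖zLine a1 a2 τ‖ ≤ 2 * R := by gcongr
      _ ≤ r0 * ‖p‖ := hp1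
      _ ≤ r ⟨τ, hτ⟩ * ‖p‖ := by gcongr
  have hb := norm_zTerm_le ⟨τ, hτ⟩ (zLine a1 a2 τ) hcond hp.2
  refine hb.trans ?_
  have hrr : (r ⟨τ, hτ⟩) ^ (-3 : ℝ) ≤ r0 ^ (-3 : ℝ) :=
    Real.rpow_le_rpow_of_nonpos hr0pos hr (by norm_num)
  have h3 : 0 ≤ ‖p‖ ^ (-3 : ℝ) := by positivity
  have h4 : 0 ≤ (r ⟨τ, hτ⟩) ^ (-3 : ℝ) := by
    have := r_pos ⟨τ, hτ⟩
    positivity
  have h5 : ‖zLine a1 a2 τ‖ ^ 2 ≤ R ^ 2 := by gcongr
  calc 2 * ‖zLine a1 a2 τ‖ ^ 2 * (r ⟨τ, hτ⟩) ^ (-3 : ℝ) * ‖p‖ ^ (-3 : ℝ)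
      ≤ 2 * R ^ 2 * r0 ^ (-3 : ℝ) * ‖p‖ ^ (-3 : ℝ) := by gcongr

/-- `τ ↦ ζ(a₁τ + a₂; τ)` is holomorphic on the upper half plane, for `(a₁, a₂) ∉ ℤ²`. -/
lemma differentiableOn_wZeta_zLine {a1 a2 : ℝ} (ha : ∀ m n : ℤ, ¬ (a1 = m ∧ a2 = n)) :
    DifferentiableOn ℂ (fun τ : ℂ => wZeta τ (zLine a1 a2 τ)) {z : ℂ | 0 < z.im} :=
  (summableLocallyUniformlyOn_zTerm_zLine a1 a2).differentiableOn isOpen_upperHalfPlaneSet
    fun p _ hτ => differentiableAt_zTerm_zLine ha p hτ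

end

end Fermat.Agent.GS.Eis1
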