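import Mathlib

/-!
# GS / Eis1 : the Weierstrass zeta function of the lattice `ℤτ + ℤ` — terms and summability

`zTerm τ z p = 1/(z - ω) + 1/ω + z/ω²` for `ω = p.1 τ + p.2`; with Lean's `1/0 = 0` the term at
`p = 0` is `1/z`, so that `wZeta τ z = ∑' p, zTerm τ z p` is the Weierstrass zeta function.
-/

set_option autoImplicit false

namespace Fermat.Agent.GS.Eis1

open Complex UpperHalfPlane EisensteinSeries Filter Asymptotics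

noncomputable section

/-- The lattice point `p.1 τ + p.2`. -/
def lp (τ : ℂ) (p : ℤ × ℤ) : ℂ := (p.1 : ℂ) * τ + (p.2 : ℂ)

/-- The summand of the Weierstrass zeta function. -/
def zTerm (τ z : ℂ) (p : ℤ × ℤ) : ℂ := 1 / (z - lp τ p) + 1 / lp τ p + z / lp τ p ^ 2

/-- The Weierstrass zeta function of the lattice `ℤτ + ℤ`. -/
def wZeta (τ z : ℂ) : ℂ := ∑' p : ℤ × ℤ, zTerm τ z p

@[simp] lemma lp_zero (τ : ℂ) : lp τ 0 = 0 := by simp [lp]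

lemma zTerm_zero (τ z : ℂ) : zTerm τ z 0 = 1 / z := by simp [zTerm]

lemma lp_neg (τ : ℂ) (p : ℤ × ℤ) : lp τ (-p) = -lp τ p := by
  simp [lp]; ring

lemma lp_ne_zero (τ : ℍ) {p : ℤ × ℤ} (hp : p ≠ 0) : lp (τ : ℂ) p ≠ 0 := by
  have h := linear_ne_zero (cd := ![(p.1 : ℝ), (p.2 : ℝ)]) τ (by
    intro h
    apply hp
    have h0 : p.1 = 0 := by simpa using congrFun h 0
    have h1 : p.2 = 0 := by simpa using congrFun h 1
    exact Prod.ext h0 h1)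
  simpa [lp] using h

lemma norm_pair_eq (p : ℤ × ℤ) : ‖(![p.1, p.2] : Fin 2 → ℤ)‖ = ‖p‖ := by
  rw [EisensteinSeries.norm_eq_max_natAbs, Prod.norm_def]
  simp [Int.norm_eq_abs, Nat.cast_max, Nat.cast_natAbs]

lemma r_mul_norm_le (τ : ℍ) (p : ℤ × ℤ) : r τ * ‖p‖ ≤ ‖lp (τ : ℂ) p‖ := by
  by_cases hp : p = 0
  · simp [hp]
  · have h := r_mul_max_le τ (x := ![p.1, p.2]) (by
      intro h
      apply hp
      have h0 : p.1 = 0 := by simpa using congrFun h 0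
      have h1 : p.2 = 0 := by simpa using congrFun h 1
      exact Prod.ext h0 h1)
    rw [norm_pair_eq] at h
    simpa [lp] using h

/-- The closed form of a term. -/
lemma zTerm_eq {τ z : ℂ} {p : ℤ × ℤ} (h1 : lp τ p ≠ 0) (h2 : z - lp τ p ≠ 0) :
    zTerm τ z p = z ^ 2 / (lp τ p ^ 2 * (z - lp τ p)) := by
  unfold zTerm
  field_simp
  ring

/-- The basic bound. -/
lemma norm_zTerm_le (τ : ℍ) (z : ℂ) {p : ℤ × ℤ} (hp : 2 * ‖z‖ ≤ r τ * ‖p‖) (hp0 : p ≠ 0) :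
    ‖zTerm (τ : ℂ) z p‖ ≤ 2 * ‖z‖ ^ 2 * (r τ) ^ (-3 : ℝ) * ‖p‖ ^ (-3 : ℝ) := by
  have hr : 0 < r τ := r_pos τ
  have hpn : 0 < ‖p‖ := norm_pos_iff.mpr hp0
  have hl : r τ * ‖p‖ ≤ ‖lp (τ : ℂ) p‖ := r_mul_norm_le τ p
  have hrp : 0 < r τ * ‖p‖ := mul_pos hr hpn
  have hl0 : lp (τ : ℂ) p ≠ 0 := lp_ne_zero τ hp0
  have hsub : r τ * ‖p‖ / 2 ≤ ‖z - lp (τ : ℂ) p‖ := by
    have := norm_sub_norm_le (lp (τ : ℂ) p) z
    rw [norm_sub_rev] at this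
    linarith
  have hsub0 : z - lp (τ : ℂ) p ≠ 0 := by
    intro h
    rw [h, norm_zero] at hsub
    linarith
  rw [zTerm_eq hl0 hsub0, norm_div, norm_mul, norm_pow, norm_pow]
  have hden : (r τ * ‖p‖) ^ 2 * (r τ * ‖p‖ / 2) ≤ ‖lp (τ : ℂ) p‖ ^ 2 * ‖z - lp (τ : ℂ) p‖ := by
    gcongr
  have hden0 : 0 < (r τ * ‖p‖) ^ 2 * (r τ * ‖p‖ / 2) := by positivity
  calc ‖z‖ ^ 2 / (‖lp (τ : ℂ) p‖ ^ 2 * ‖z - lp (τ : ℂ) p‖)
      ≤ ‖z‖ ^ 2 / ((r τ * ‖p‖) ^ 2 * (r τ * ‖p‖ / 2)) := by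
        apply div_le_div_of_nonneg_left (by positivity) hden0 hden
    _ = 2 * ‖z‖ ^ 2 * (r τ) ^ (-3 : ℝ) * ‖p‖ ^ (-3 : ℝ) := by
        rw [Real.rpow_neg hr.le, Real.rpow_neg hpn.le]
        have e1 : (r τ) ^ (3 : ℝ) = (r τ) ^ 3 := by norm_cast
        have e2 : ‖p‖ ^ (3 : ℝ) = ‖p‖ ^ 3 := by norm_cast
        rw [e1, e2]
        field_simp

/-- `‖p‖ ^ (-3)` is summable over `ℤ × ℤ`. -/
lemma summable_norm_rpow_neg_three : Summable fun p : ℤ × ℤ => ‖p‖ ^ (-3 : ℝ) := by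
  have h := summable_one_div_norm_rpow (k := 3) (by norm_num)
  rw [← (finTwoArrowEquiv ℤ).symm.summable_iff] at h
  refine h.congr fun p => ?_
  simp only [Function.comp_apply, finTwoArrowEquiv_symm_apply]
  rw [norm_pair_eq]

end

end Fermat.Agent.GS.Eis1
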